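import Fermat.Agent.S27.RiemannI
import Fermat.Agent.S27.Cls
import Fermat.Agent.S27.Ev
import Fermat.Prelude.Def_ModularCurve_ArithmeticGalois

/-!
# S17: basic definitions (owner: helper17).  No proofs of substance here.

General setting: `K` algebraically closed of characteristic zero, `F` a function field of one
variable over `K` (`IsFF1 K F`, `NonConst K F`), `P₀ : Place K F` a base place ("infinity").

* `Qb`, `GQ`            : the algebraic closure of the rationals and its Galois group
* `h1Bound K F`         : a natural number `c₀` with `H1 D = 0` as soon as `c₀ ≤ deg D`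
* `Lm P₀ m`             : `L(m P₀)`
* `Lsp P₀ m E`          : `L(m P₀ - E)`
* `lead P t n f`        : the leading coefficient `(t ^ n * f)(P)` of `f` at `P` (pole order `≤ n`)
* `IsRed P₀ x E`        : `E` is the reduced effective divisor of the class `x`
-/

set_option autoImplicit false

noncomputable section

namespace Fermat.Agent.S17

open AlgebraicCurve Fermat.Agent.S24.FF Fermat.Agent.S27

/-- the algebraic closure of the rationals -/
abbrev Qb : Type := AlgebraicClosure ℚ

/-- the absolute Galois group of the rationals -/
abbrev GQ : Type := Qb ≃ₐ[ℚ] Qb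

section General

variable (K F : Type*) [Field K] [Field F] [Algebra K F]

/-- A natural number `c₀` such that `H1 D = 0` for all divisors of degree at least `c₀`. -/
def h1Bound [IsAlgClosed K] [CharZero K] [IsFF1 K F] [NonConst K F] : ℕ :=
  (Classical.choose (exists_forall_subsingleton_H1 (K := K) (F := F))).toNat

variable {K F}

theorem subsingleton_H1_of_h1Bound_le [IsAlgClosed K] [CharZero K] [IsFF1 K F] [NonConst K F]
    (D : Divisor K F) (h : (h1Bound K F : ℤ) ≤ Divisor.degree D) : Subsingleton (H1 D) :=
  Classical.choose_spec (exists_forall_subsingleton_H1 (K := K) (F := F)) D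
    (le_trans (Int.self_le_toNat _) h)

/-- `L(m P₀)` -/
def Lm (P₀ : Place K F) (m : ℕ) : Submodule K F := riemannRochSpace (m • pt P₀)

/-- `L(m P₀ - E)` -/
def Lsp (P₀ : Place K F) (m : ℕ) (E : Divisor K F) : Submodule K F :=
  riemannRochSpace (m • pt P₀ - E)

/-- The leading coefficient of `f` at `P` with respect to the parameter `t` and the allowed pole
order `n`, i.e. the value of `t ^ n * f` at `P`. -/
def lead (P : Place K F) (t : F) (n : ℤ) (f : F) : K := ev P (t ^ n * f)

/-- `E` is effective, `E - (deg E) P₀` represents the class `x`, and `E` has minimal degree with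
these properties. -/
def IsRed (P₀ : Place K F) (x : Pic0 K F) (E : Divisor K F) : Prop :=
  0 ≤ E ∧ cls (E - (Divisor.degree E) • pt P₀) = x ∧
    ∀ E' : Divisor K F, 0 ≤ E' → cls (E' - (Divisor.degree E') • pt P₀) = x →
      Divisor.degree E ≤ Divisor.degree E'

end General

end Fermat.Agent.S17
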